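/-
GATE-S (S33) / node [INST²](a), APPROVED TWIN (helper26; board 5104 / 5145): the fibre formula for
ALL ball2-units on the nodal frame, from helper16's `NodalHyp` ALONE — no norm identity, no
pole-degree inequality, no annulus analysis.  File 1: witnesses and the SEPARATION lemma.

Frame and calculus: `GS/Nodal/LSR2{Defs,Red,Main}.lean` (helper16): `NodalHyp`, `redSpace2`, `glued`,
`Red`, `disc1`, `disc2`.

* `Wit1 R1 R2 D Q' m x` : `x ∈ L(D) ∩ Rw₁ ∩ Rw₂`, `red₁ x ≠ 0`, `ord_{Q'} (red₁ x) = m`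
  (`Wit2` for the second component), with `mul`, `pow`, `mono`, and the bound `le_of_red`
  (`Red H D E₁ E₂ → -E₁ Q' ≤ m`);
* `mem_disc1_of_le` : **duality by hand** — if for ONE large `N` all functions of `L(N C - v)`
  reduce into the glued space of `(N C₁ - Q', N C₂)`, `Q'` not a node, then `v` reduces to `Q'`;
* `exists_wit1_sub_single` : **separation** — if `v` does NOT reduce to the smooth place `Q'`, then
  for every large `N` some function of `L(N C - v)`, integral for both valuations, has a first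
  reduction of EXACT order `-(N C₁) Q'` at `Q'`  (it vanishes at `v` but its reduction does not
  acquire a zero at `Q'`).
-/
import Mathlib
import Fermat.Agent.GS.Nodal.LSR2Main

set_option autoImplicit false
set_option linter.unusedSectionVars false

noncomputable section

open AlgebraicCurve

namespace Fermat.Agent.GS.Fib

open Fermat.Agent.RRh45 Fermat.Agent.GJ.S37MinDiv Fermat.Agent.GJ.J1 Fermat.Agent.GK.MultiVal
open Fermat.Agent.GK.NodalGraded Fermat.Agent.GS.Nodal.LSR2

variable {K F k Ft1 Ft2 : Type*} [Field K] [Field F] [Algebra K F] [Field k]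
  [Field Ft1] [Algebra k Ft1] [Field Ft2] [Algebra k Ft2]

/-! ### witnesses -/

/-- `x ∈ L(D)` is integral for both valuations, its FIRST reduction is nonzero and has order `m`
at `Q'`. -/
def Wit1 (R1 : RedData K F k Ft1) (R2 : RedData K F k Ft2) (D : Divisor K F)
    (Q' : Place k Ft1) (m : ℤ) (x : F) : Prop :=
  ∃ (h1 : x ∈ R1.Rw) (_ : x ∈ R2.Rw), x ∈ riemannRochSpace D ∧ R1.red ⟨x, h1⟩ ≠ 0 ∧
    Q'.ord (R1.red ⟨x, h1⟩) = m

/-- `x ∈ L(D)` is integral for both valuations, its SECOND reduction is nonzero and has order `m`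
at `Q'`. -/
def Wit2 (R1 : RedData K F k Ft1) (R2 : RedData K F k Ft2) (D : Divisor K F)
    (Q' : Place k Ft2) (m : ℤ) (x : F) : Prop :=
  ∃ (_ : x ∈ R1.Rw) (h2 : x ∈ R2.Rw), x ∈ riemannRochSpace D ∧ R2.red ⟨x, h2⟩ ≠ 0 ∧
    Q'.ord (R2.red ⟨x, h2⟩) = m

variable {R1 : RedData K F k Ft1} {R2 : RedData K F k Ft2}

theorem Wit1.mul {D D' : Divisor K F} {Q' : Place k Ft1} {m m' : ℤ} {x x' : F}
    (h : Wit1 R1 R2 D Q' m x) (h' : Wit1 R1 R2 D' Q' m' x') :
    Wit1 R1 R2 (D + D') Q' (m + m') (x * x') := by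
  obtain ⟨h1, h2, hx, hne, hord⟩ := h
  obtain ⟨h1', h2', hx', hne', hord'⟩ := h'
  have e : (⟨x * x', mul_mem h1 h1'⟩ : R1.Rw) = ⟨x, h1⟩ * ⟨x', h1'⟩ := rfl
  refine ⟨mul_mem h1 h1', mul_mem h2 h2', mul_mem_riemannRochSpace_add hx hx', ?_, ?_⟩
  · rw [e, map_mul]; exact mul_ne_zero hne hne'
  · rw [e, map_mul, Q'.ord_mul hne hne', hord, hord']

theorem Wit2.mul {D D' : Divisor K F} {Q' : Place k Ft2} {m m' : ℤ} {x x' : F}
    (h : Wit2 R1 R2 D Q' m x) (h' : Wit2 R1 R2 D' Q' m' x') :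
    Wit2 R1 R2 (D + D') Q' (m + m') (x * x') := by
  obtain ⟨h1, h2, hx, hne, hord⟩ := h
  obtain ⟨h1', h2', hx', hne', hord'⟩ := h'
  have e : (⟨x * x', mul_mem h2 h2'⟩ : R2.Rw) = ⟨x, h2⟩ * ⟨x', h2'⟩ := rfl
  refine ⟨mul_mem h1 h1', mul_mem h2 h2', mul_mem_riemannRochSpace_add hx hx', ?_, ?_⟩
  · rw [e, map_mul]; exact mul_ne_zero hne hne'
  · rw [e, map_mul, Q'.ord_mul hne hne', hord, hord']

theorem Wit1.mono {D D' : Divisor K F} (hD : D ≤ D') {Q' : Place k Ft1} {m : ℤ} {x : F}
    (h : Wit1 R1 R2 D Q' m x) : Wit1 R1 R2 D' Q' m x := by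
  obtain ⟨h1, h2, hx, hne, hord⟩ := h
  exact ⟨h1, h2, riemannRochSpace_mono hD hx, hne, hord⟩

theorem Wit2.mono {D D' : Divisor K F} (hD : D ≤ D') {Q' : Place k Ft2} {m : ℤ} {x : F}
    (h : Wit2 R1 R2 D Q' m x) : Wit2 R1 R2 D' Q' m x := by
  obtain ⟨h1, h2, hx, hne, hord⟩ := h
  exact ⟨h1, h2, riemannRochSpace_mono hD hx, hne, hord⟩

theorem wit1_one {D : Divisor K F} (hD : 0 ≤ D) (Q' : Place k Ft1) :
    Wit1 R1 R2 D Q' 0 1 := by
  refine ⟨one_mem _, one_mem _, one_mem_riemannRochSpace hD, ?_, ?_⟩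
  · have : (⟨1, one_mem _⟩ : R1.Rw) = 1 := rfl
    rw [this, map_one]; exact one_ne_zero
  · have : (⟨1, one_mem _⟩ : R1.Rw) = 1 := rfl
    rw [this, map_one, Place.ord_one]

theorem wit2_one {D : Divisor K F} (hD : 0 ≤ D) (Q' : Place k Ft2) :
    Wit2 R1 R2 D Q' 0 1 := by
  refine ⟨one_mem _, one_mem _, one_mem_riemannRochSpace hD, ?_, ?_⟩
  · have : (⟨1, one_mem _⟩ : R2.Rw) = 1 := rfl
    rw [this, map_one]; exact one_ne_zero
  · have : (⟨1, one_mem _⟩ : R2.Rw) = 1 := rfl
    rw [this, map_one, Place.ord_one]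

theorem Wit1.pow {D : Divisor K F} {Q' : Place k Ft1} {m : ℤ} {x : F}
    (h : Wit1 R1 R2 D Q' m x) (n : ℕ) : Wit1 R1 R2 (n • D) Q' (n * m) (x ^ n) := by
  induction n with
  | zero =>
    rw [zero_nsmul, pow_zero, Nat.cast_zero, zero_mul]
    exact wit1_one (le_refl _) Q'
  | succ n ih =>
    rw [succ_nsmul, pow_succ]
    have := ih.mul h
    have e : (n : ℤ) * m + m = ((n + 1 : ℕ) : ℤ) * m := by push_cast; ring
    rwa [e] at this

theorem Wit2.pow {D : Divisor K F} {Q' : Place k Ft2} {m : ℤ} {x : F}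
    (h : Wit2 R1 R2 D Q' m x) (n : ℕ) : Wit2 R1 R2 (n • D) Q' (n * m) (x ^ n) := by
  induction n with
  | zero =>
    rw [zero_nsmul, pow_zero, Nat.cast_zero, zero_mul]
    exact wit2_one (le_refl _) Q'
  | succ n ih =>
    rw [succ_nsmul, pow_succ]
    have := ih.mul h
    have e : (n : ℤ) * m + m = ((n + 1 : ℕ) : ℤ) * m := by push_cast; ring
    rwa [e] at this

variable {hc : RedCompat R1 R2}
variable {ι : Type*} {P : ι → Place k Ft1} {Q : ι → Place k Ft2}
variable {C : Divisor K F} {C₁ : Divisor k Ft1} {C₂ : Divisor k Ft2} {g c : ℤ} {n₀ : ℕ}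
variable [FiniteResidues K F] [HasPrincipalDivisors K F] [Nonempty (Place K F)]
variable [FiniteResidues k Ft1] [HasPrincipalDivisors k Ft1] [Nonempty (Place k Ft1)]
variable [FiniteResidues k Ft2] [HasPrincipalDivisors k Ft2] [Nonempty (Place k Ft2)]
variable {H : NodalHyp hc P Q C C₁ C₂ g c n₀}

/-- a witness in `L(D)`, `D` with reduction `(E₁, E₂)`, has order at least `-E₁ Q'`. -/
theorem Wit1.le_of_red {D : Divisor K F} {E₁ : Divisor k Ft1} {E₂ : Divisor k Ft2}
    (hR : Red H D E₁ E₂) {Q' : Place k Ft1} {m : ℤ} {x : F} (h : Wit1 R1 R2 D Q' m x) :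
    -(E₁ Q') ≤ m := by
  obtain ⟨h1, h2, hx, hne, hord⟩ := h
  have hmem : (R1.red ⟨x, h1⟩, R2.red ⟨x, h2⟩) ∈ redSpace2 hc D := ⟨x, h1, h2, hx, rfl, rfl⟩
  rw [hR.eq] at hmem
  have := (mem_riemannRochSpace_iff.mp hmem.1 Q').resolve_left hne
  rw [← hord]
  exact this

theorem Wit2.le_of_red {D : Divisor K F} {E₁ : Divisor k Ft1} {E₂ : Divisor k Ft2}
    (hR : Red H D E₁ E₂) {Q' : Place k Ft2} {m : ℤ} {x : F} (h : Wit2 R1 R2 D Q' m x) :
    -(E₂ Q') ≤ m := by
  obtain ⟨h1, h2, hx, hne, hord⟩ := h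
  have hmem : (R1.red ⟨x, h1⟩, R2.red ⟨x, h2⟩) ∈ redSpace2 hc D := ⟨x, h1, h2, hx, rfl, rfl⟩
  rw [hR.eq] at hmem
  have := (mem_riemannRochSpace_iff.mp hmem.2.1 Q').resolve_left hne
  rw [← hord]
  exact this

/-- every glued element of a divisor with a reduction of exact order is witnessed. -/
theorem Red.exists_wit1 {D : Divisor K F} {E₁ : Divisor k Ft1} {E₂ : Divisor k Ft2}
    (hR : Red H D E₁ E₂) (Q' : Place k Ft1) : ∃ x, Wit1 R1 R2 D Q' (-(E₁ Q')) x := by
  obtain ⟨w, hw, hw0, hord⟩ := H.exists_exact1 hR.node1 hR.node2 hR.deg1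
    (by have := hR.deg2; omega) Q'
  rw [← hR.eq] at hw
  obtain ⟨x, h1, h2, hx, e1, e2⟩ := hw
  exact ⟨x, h1, h2, hx, by rw [e1]; exact hw0, by rw [e1]; exact hord⟩

theorem Red.exists_wit2 {D : Divisor K F} {E₁ : Divisor k Ft1} {E₂ : Divisor k Ft2}
    (hR : Red H D E₁ E₂) (Q' : Place k Ft2) : ∃ x, Wit2 R1 R2 D Q' (-(E₂ Q')) x := by
  obtain ⟨w, hw, hw0, hord⟩ := H.exists_exact2 hR.node1 hR.node2
    (by have := hR.deg1; omega) hR.deg2 Q'
  rw [← hR.eq] at hw
  obtain ⟨x, h1, h2, hx, e1, e2⟩ := hw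
  exact ⟨x, h1, h2, hx, by rw [e2]; exact hw0, by rw [e2]; exact hord⟩

/-! ### duality by hand and separation, first component -/

theorem single_apply_of_ne {L E : Type*} [Field L] [Field E] [Algebra L E] {a b : Place L E}
    (h : b ≠ a) (n : ℤ) : (Finsupp.single a n : Divisor L E) b = 0 := by
  classical
  rw [Finsupp.single_apply, if_neg (fun e => h e.symm)]

/-- **duality by hand**: if for one large `N` the pair reduction of `L(N C - v)` lies in the glued
space of `(N C₁ - Q', N C₂)`, `Q'` not a node, then `v` reduces to `Q'`. -/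
theorem mem_disc1_of_le {v : Place K F} {Q' : Place k Ft1} (hQ' : ∀ j, Q' ≠ P j) {N : ℕ}
    (hN1 : c + 2 ≤ N * Divisor.degree C₁) (hN2 : c + 1 ≤ N * Divisor.degree C₂)
    (hle : redSpace2 hc (N • C - Finsupp.single v 1) ≤
      glued P Q (N • C₁ - Finsupp.single Q' 1) (N • C₂)) : v ∈ disc1 H Q' := by
  have hcn := H.c_nonneg
  have hdegC := H.degC
  have hnode1 : ∀ j, (N • C₁ - Finsupp.single Q' 1 : Divisor k Ft1) (P j) = 0 := fun j => by
    rw [Finsupp.sub_apply, nsmul_div_apply, H.C₁_node j,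
      single_apply_of_ne (fun e => hQ' j e.symm)]; simp
  have hnode2 : ∀ j, (N • C₂) (Q j) = 0 := fun j => by
    rw [nsmul_div_apply, H.C₂_node j, mul_zero]
  have hdE1 : Divisor.degree (N • C₁ - Finsupp.single Q' 1) = N * Divisor.degree C₁ - 1 := by
    rw [map_sub, degree_nsmul', Divisor.degree_single, H.degFt1 Q']; simp
  have hdE2 : Divisor.degree (N • C₂) = N * Divisor.degree C₂ := degree_nsmul' N C₂
  have hdX : Divisor.degree (N • C - Finsupp.single v 1) = N * Divisor.degree C - 1 := by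
    rw [map_sub, degree_nsmul', Divisor.degree_single, H.degF v]; simp
  -- the inclusion is an equality
  have hXG : redSpace2 hc (N • C - Finsupp.single v 1) =
      glued P Q (N • C₁ - Finsupp.single Q' 1) (N • C₂) := by
    refine Submodule.eq_of_le_of_finrank_eq hle ?_
    have e1 : (Module.finrank k (redSpace2 hc (N • C - Finsupp.single v 1)) : ℤ) =
        Divisor.degree (N • C - Finsupp.single v 1) + 1 - g :=
      H.finrank_redSpace2 (by rw [hdX, hdegC]; nlinarith)
    have e2 := H.nr_dim (N • C₁ - Finsupp.single Q' 1) (N • C₂) hnode1 hnode2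
      (by rw [hdE1]; omega) (by rw [hdE2]; omega)
    have : (Module.finrank k (redSpace2 hc (N • C - Finsupp.single v 1)) : ℤ) =
        Module.finrank k (glued P Q (N • C₁ - Finsupp.single Q' 1) (N • C₂)) := by
      rw [e1, e2, hdX, hdE1, hdE2, hdegC]; ring
    exact_mod_cast this
  -- products with the glued space land in the pencil
  have key : ∀ z' ∈ redSpace2 hc (Finsupp.single v 1 + n₀ • C),
      ∀ w ∈ glued P Q (N • C₁ - Finsupp.single Q' 1) (N • C₂),
        z' * w ∈ glued P Q ((n₀ + N) • C₁) ((n₀ + N) • C₂) := by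
    intro z' hz' w hw
    rw [← hXG] at hw
    have h := mul_mem_redSpace2 hc hz' hw
    have e : Finsupp.single v 1 + n₀ • C + (N • C - Finsupp.single v 1) = (n₀ + N) • C := by
      rw [add_nsmul]; abel
    rw [e] at h
    exact H.pencil (n₀ + N) (Nat.le_add_right _ _) h
  have hn1' : ∀ j, (Finsupp.single Q' 1 + n₀ • C₁ : Divisor k Ft1) (P j) = 0 := fun j => by
    rw [Finsupp.add_apply, nsmul_div_apply, H.C₁_node j,
      single_apply_of_ne (fun e => hQ' j e.symm)]; simp
  have hn2' : ∀ j, (n₀ • C₂) (Q j) = 0 := fun j => by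
    rw [nsmul_div_apply, H.C₂_node j, mul_zero]
  have hdA1 : Divisor.degree (Finsupp.single Q' 1 + n₀ • C₁) = 1 + n₀ * Divisor.degree C₁ := by
    rw [map_add, degree_nsmul', Divisor.degree_single, H.degFt1 Q']; simp
  have hdA2 : Divisor.degree (n₀ • C₂) = n₀ * Divisor.degree C₂ := degree_nsmul' n₀ C₂
  have hdA : Divisor.degree (Finsupp.single v 1 + n₀ • C) = 1 + n₀ * Divisor.degree C := by
    rw [map_add, degree_nsmul', Divisor.degree_single, H.degF v]; simp
  have h01 := H.hn₀1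
  have h02 := H.hn₀2
  refine ⟨le_add_of_nonneg_left (Finsupp.single_nonneg.mpr zero_le_one), hn1', hn2',
    le_add_of_nonneg_left (Finsupp.single_nonneg.mpr zero_le_one), le_refl _, ?_, ?_⟩
  · rw [hdA1, hdA2, hdA, hdegC]; ring
  · refine Submodule.eq_of_le_of_finrank_eq ?_ ?_
    · intro z' hz'
      refine ⟨?_, ?_, fun j => ?_⟩
      · rw [mem_riemannRochSpace_iff]
        intro Q''
        by_cases h0 : z'.1 = 0
        · exact Or.inl h0
        right
        obtain ⟨w, hw, hw0, hord⟩ := H.exists_exact1 hnode1 hnode2 (by rw [hdE1]; omega)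
          (by rw [hdE2]; omega) Q''
        have h := (key z' hz' w hw).1
        rw [Prod.fst_mul] at h
        have h' := (mem_riemannRochSpace_iff.mp h Q'').resolve_left (mul_ne_zero h0 hw0)
        rw [Q''.ord_mul h0 hw0, hord, nsmul_div_apply, Finsupp.sub_apply, nsmul_div_apply] at h'
        rw [Finsupp.add_apply, nsmul_div_apply]
        push_cast at h'
        linarith
      · rw [mem_riemannRochSpace_iff]
        intro Q''
        by_cases h0 : z'.2 = 0
        · exact Or.inl h0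
        right
        obtain ⟨w, hw, hw0, hord⟩ := H.exists_exact2 hnode1 hnode2 (by rw [hdE1]; omega)
          (by rw [hdE2]; omega) Q''
        have h := (key z' hz' w hw).2.1
        rw [Prod.snd_mul] at h
        have h' := (mem_riemannRochSpace_iff.mp h Q'').resolve_left (mul_ne_zero h0 hw0)
        rw [Q''.ord_mul h0 hw0, hord, nsmul_div_apply, nsmul_div_apply] at h'
        rw [nsmul_div_apply]
        push_cast at h'
        linarith
      · obtain ⟨w, hw, hw0⟩ := H.nr_node (N • C₁ - Finsupp.single Q' 1) (N • C₂) hnode1 hnode2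
          (by rw [hdE1]; omega) (by rw [hdE2]; omega) j
        exact GluedAt.of_mul ((key z' hz' w hw).2.2 j) (hw.2.2 j) hw0
    · have e1 : (Module.finrank k (redSpace2 hc (Finsupp.single v 1 + n₀ • C)) : ℤ) =
          Divisor.degree (Finsupp.single v 1 + n₀ • C) + 1 - g :=
        H.finrank_redSpace2 (by rw [hdA, hdegC]; nlinarith)
      have e2 := H.nr_dim (Finsupp.single Q' 1 + n₀ • C₁) (n₀ • C₂) hn1' hn2'
        (by rw [hdA1]; omega) (by rw [hdA2]; omega)
      have : (Module.finrank k (redSpace2 hc (Finsupp.single v 1 + n₀ • C)) : ℤ) =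
          Module.finrank k (glued P Q (Finsupp.single Q' 1 + n₀ • C₁) (n₀ • C₂)) := by
        rw [e1, e2, hdA, hdA1, hdA2, hdegC]; ring
      exact_mod_cast this

/-- **separation**: if `v` does not reduce to the smooth place `Q'` of the first component, then
for every large `N` there is a function of `L(N C - v)`, integral for both valuations, whose first
reduction has the exact order `-(N C₁) Q'` at `Q'`. -/
theorem exists_wit1_sub_single {v : Place K F} {Q' : Place k Ft1} (hQ' : ∀ j, Q' ≠ P j)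
    (hv : v ∉ disc1 H Q') {N : ℕ} (hN : n₀ ≤ N) (hN1 : c + 2 ≤ N * Divisor.degree C₁)
    (hN2 : c + 1 ≤ N * Divisor.degree C₂) :
    ∃ x, Wit1 R1 R2 (N • C - Finsupp.single v 1) Q' (-((N • C₁) Q')) x := by
  by_contra hcon
  push Not at hcon
  apply hv
  refine mem_disc1_of_le hQ' hN1 hN2 ?_
  rintro z ⟨x, h1, h2, hx, e1, e2⟩
  have hxN : x ∈ riemannRochSpace (N • C) :=
    riemannRochSpace_mono (sub_le_self _ (Finsupp.single_nonneg.mpr zero_le_one)) hx
  have hzN : z ∈ glued P Q (N • C₁) (N • C₂) := H.pencil N hN ⟨x, h1, h2, hxN, e1, e2⟩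
  refine ⟨?_, hzN.2.1, hzN.2.2⟩
  rw [mem_riemannRochSpace_iff]
  intro Q''
  by_cases h0 : z.1 = 0
  · exact Or.inl h0
  right
  have hb := (mem_riemannRochSpace_iff.mp hzN.1 Q'').resolve_left h0
  by_cases hQQ : Q'' = Q'
  · subst hQQ
    have hne : Q''.ord z.1 ≠ -((N • C₁) Q'') := fun he =>
      hcon x ⟨h1, h2, hx, by rw [e1]; exact h0, by rw [e1]; exact he⟩
    rw [Finsupp.sub_apply, Finsupp.single_eq_same]
    omega
  · rw [Finsupp.sub_apply, single_apply_of_ne hQQ]
    omega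

/-! ### duality by hand and separation, second component -/

/-- **duality by hand**, second component. -/
theorem mem_disc2_of_le {v : Place K F} {Q' : Place k Ft2} (hQ' : ∀ j, Q' ≠ Q j) {N : ℕ}
    (hN1 : c + 1 ≤ N * Divisor.degree C₁) (hN2 : c + 2 ≤ N * Divisor.degree C₂)
    (hle : redSpace2 hc (N • C - Finsupp.single v 1) ≤
      glued P Q (N • C₁) (N • C₂ - Finsupp.single Q' 1)) : v ∈ disc2 H Q' := by
  have hcn := H.c_nonneg
  have hdegC := H.degC
  have hnode1 : ∀ j, (N • C₁) (P j) = 0 := fun j => by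
    rw [nsmul_div_apply, H.C₁_node j, mul_zero]
  have hnode2 : ∀ j, (N • C₂ - Finsupp.single Q' 1 : Divisor k Ft2) (Q j) = 0 := fun j => by
    rw [Finsupp.sub_apply, nsmul_div_apply, H.C₂_node j,
      single_apply_of_ne (fun e => hQ' j e.symm)]; simp
  have hdE1 : Divisor.degree (N • C₁) = N * Divisor.degree C₁ := degree_nsmul' N C₁
  have hdE2 : Divisor.degree (N • C₂ - Finsupp.single Q' 1) = N * Divisor.degree C₂ - 1 := by
    rw [map_sub, degree_nsmul', Divisor.degree_single, H.degFt2 Q']; simp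
  have hdX : Divisor.degree (N • C - Finsupp.single v 1) = N * Divisor.degree C - 1 := by
    rw [map_sub, degree_nsmul', Divisor.degree_single, H.degF v]; simp
  have hXG : redSpace2 hc (N • C - Finsupp.single v 1) =
      glued P Q (N • C₁) (N • C₂ - Finsupp.single Q' 1) := by
    refine Submodule.eq_of_le_of_finrank_eq hle ?_
    have e1 : (Module.finrank k (redSpace2 hc (N • C - Finsupp.single v 1)) : ℤ) =
        Divisor.degree (N • C - Finsupp.single v 1) + 1 - g :=
      H.finrank_redSpace2 (by rw [hdX, hdegC]; nlinarith)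
    have e2 := H.nr_dim (N • C₁) (N • C₂ - Finsupp.single Q' 1) hnode1 hnode2
      (by rw [hdE1]; omega) (by rw [hdE2]; omega)
    have : (Module.finrank k (redSpace2 hc (N • C - Finsupp.single v 1)) : ℤ) =
        Module.finrank k (glued P Q (N • C₁) (N • C₂ - Finsupp.single Q' 1)) := by
      rw [e1, e2, hdX, hdE1, hdE2, hdegC]; ring
    exact_mod_cast this
  have key : ∀ z' ∈ redSpace2 hc (Finsupp.single v 1 + n₀ • C),
      ∀ w ∈ glued P Q (N • C₁) (N • C₂ - Finsupp.single Q' 1),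
        z' * w ∈ glued P Q ((n₀ + N) • C₁) ((n₀ + N) • C₂) := by
    intro z' hz' w hw
    rw [← hXG] at hw
    have h := mul_mem_redSpace2 hc hz' hw
    have e : Finsupp.single v 1 + n₀ • C + (N • C - Finsupp.single v 1) = (n₀ + N) • C := by
      rw [add_nsmul]; abel
    rw [e] at h
    exact H.pencil (n₀ + N) (Nat.le_add_right _ _) h
  have hn1' : ∀ j, (n₀ • C₁) (P j) = 0 := fun j => by
    rw [nsmul_div_apply, H.C₁_node j, mul_zero]
  have hn2' : ∀ j, (Finsupp.single Q' 1 + n₀ • C₂ : Divisor k Ft2) (Q j) = 0 := fun j => by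
    rw [Finsupp.add_apply, nsmul_div_apply, H.C₂_node j,
      single_apply_of_ne (fun e => hQ' j e.symm)]; simp
  have hdA1 : Divisor.degree (n₀ • C₁) = n₀ * Divisor.degree C₁ := degree_nsmul' n₀ C₁
  have hdA2 : Divisor.degree (Finsupp.single Q' 1 + n₀ • C₂) = 1 + n₀ * Divisor.degree C₂ := by
    rw [map_add, degree_nsmul', Divisor.degree_single, H.degFt2 Q']; simp
  have hdA : Divisor.degree (Finsupp.single v 1 + n₀ • C) = 1 + n₀ * Divisor.degree C := by
    rw [map_add, degree_nsmul', Divisor.degree_single, H.degF v]; simp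
  have h01 := H.hn₀1
  have h02 := H.hn₀2
  refine ⟨le_add_of_nonneg_left (Finsupp.single_nonneg.mpr zero_le_one), hn1', hn2', le_refl _,
    le_add_of_nonneg_left (Finsupp.single_nonneg.mpr zero_le_one), ?_, ?_⟩
  · rw [hdA1, hdA2, hdA, hdegC]; ring
  · refine Submodule.eq_of_le_of_finrank_eq ?_ ?_
    · intro z' hz'
      refine ⟨?_, ?_, fun j => ?_⟩
      · rw [mem_riemannRochSpace_iff]
        intro Q''
        by_cases h0 : z'.1 = 0
        · exact Or.inl h0
        right
        obtain ⟨w, hw, hw0, hord⟩ := H.exists_exact1 hnode1 hnode2 (by rw [hdE1]; omega)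
          (by rw [hdE2]; omega) Q''
        have h := (key z' hz' w hw).1
        rw [Prod.fst_mul] at h
        have h' := (mem_riemannRochSpace_iff.mp h Q'').resolve_left (mul_ne_zero h0 hw0)
        rw [Q''.ord_mul h0 hw0, hord, nsmul_div_apply, nsmul_div_apply] at h'
        rw [nsmul_div_apply]
        push_cast at h'
        linarith
      · rw [mem_riemannRochSpace_iff]
        intro Q''
        by_cases h0 : z'.2 = 0
        · exact Or.inl h0
        right
        obtain ⟨w, hw, hw0, hord⟩ := H.exists_exact2 hnode1 hnode2 (by rw [hdE1]; omega)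
          (by rw [hdE2]; omega) Q''
        have h := (key z' hz' w hw).2.1
        rw [Prod.snd_mul] at h
        have h' := (mem_riemannRochSpace_iff.mp h Q'').resolve_left (mul_ne_zero h0 hw0)
        rw [Q''.ord_mul h0 hw0, hord, nsmul_div_apply, Finsupp.sub_apply, nsmul_div_apply] at h'
        rw [Finsupp.add_apply, nsmul_div_apply]
        push_cast at h'
        linarith
      · obtain ⟨w, hw, hw0⟩ := H.nr_node (N • C₁) (N • C₂ - Finsupp.single Q' 1) hnode1 hnode2
          (by rw [hdE1]; omega) (by rw [hdE2]; omega) j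
        exact GluedAt.of_mul ((key z' hz' w hw).2.2 j) (hw.2.2 j) hw0
    · have e1 : (Module.finrank k (redSpace2 hc (Finsupp.single v 1 + n₀ • C)) : ℤ) =
          Divisor.degree (Finsupp.single v 1 + n₀ • C) + 1 - g :=
        H.finrank_redSpace2 (by rw [hdA, hdegC]; nlinarith)
      have e2 := H.nr_dim (n₀ • C₁) (Finsupp.single Q' 1 + n₀ • C₂) hn1' hn2'
        (by rw [hdA1]; omega) (by rw [hdA2]; omega)
      have : (Module.finrank k (redSpace2 hc (Finsupp.single v 1 + n₀ • C)) : ℤ) =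
          Module.finrank k (glued P Q (n₀ • C₁) (Finsupp.single Q' 1 + n₀ • C₂)) := by
        rw [e1, e2, hdA, hdA1, hdA2, hdegC]; ring
      exact_mod_cast this

/-- **separation**, second component. -/
theorem exists_wit2_sub_single {v : Place K F} {Q' : Place k Ft2} (hQ' : ∀ j, Q' ≠ Q j)
    (hv : v ∉ disc2 H Q') {N : ℕ} (hN : n₀ ≤ N) (hN1 : c + 1 ≤ N * Divisor.degree C₁)
    (hN2 : c + 2 ≤ N * Divisor.degree C₂) :
    ∃ x, Wit2 R1 R2 (N • C - Finsupp.single v 1) Q' (-((N • C₂) Q')) x := by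
  by_contra hcon
  push Not at hcon
  apply hv
  refine mem_disc2_of_le hQ' hN1 hN2 ?_
  rintro z ⟨x, h1, h2, hx, e1, e2⟩
  have hxN : x ∈ riemannRochSpace (N • C) :=
    riemannRochSpace_mono (sub_le_self _ (Finsupp.single_nonneg.mpr zero_le_one)) hx
  have hzN : z ∈ glued P Q (N • C₁) (N • C₂) := H.pencil N hN ⟨x, h1, h2, hxN, e1, e2⟩
  refine ⟨hzN.1, ?_, hzN.2.2⟩
  rw [mem_riemannRochSpace_iff]
  intro Q''
  by_cases h0 : z.2 = 0
  · exact Or.inl h0
  right
  have hb := (mem_riemannRochSpace_iff.mp hzN.2.1 Q'').resolve_left h0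
  by_cases hQQ : Q'' = Q'
  · subst hQQ
    have hne : Q''.ord z.2 ≠ -((N • C₂) Q'') := fun he =>
      hcon x ⟨h1, h2, hx, by rw [e2]; exact h0, by rw [e2]; exact he⟩
    rw [Finsupp.sub_apply, Finsupp.single_eq_same]
    omega
  · rw [Finsupp.sub_apply, single_apply_of_ne hQQ]
    omega

end Fermat.Agent.GS.Fib
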