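/-
GATE-S (S33) / node [INST²](a), APPROVED TWIN (helper26; board 5104 / 5145), file 2: **the fibre
formula for ALL common units of the two Gauss valuations of the nodal frame, at EVERY non-node place
of the two components, from helper16's `NodalHyp` ALONE** — no norm identity, no chart, no fibre
over a value, no pole-degree inequality.

`ff2 H : ROfSurj2.FF2 R1 R2 (disc1 H) (disc2 H) {Q' | ∀ j, Q' ≠ P j} {Q' | ∀ j, Q' ≠ Q j}`
is helper48's binder (`GS/Nodal/ROfSurj2.lean`) with `S_i` = ALL non-node places.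

Proof (first component; `Q'` a non-node place, `y` a common unit):
* `exists_wit1_avoid` : for `E ≥ 0` with no point in the disc of `Q'`, and all large `N`, some
  `x ∈ L(N C - E)`, integral for both valuations, has a first reduction of EXACT order
  `-(N C₁) Q'` at `Q'` (product of powers of the separating functions of `Sep.lean`);
* `sum_le_ord_red1` (INEQ): write `div y = A⁺ - A⁻ + (rest)` with `A^±` the zeros / poles of `y`
  in the disc of `Q'` and `E` the poles of `y` outside the disc. Multiply `y` by a function `f`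
  with poles `A⁺ + M n₀ C` of exact reduction order (`Red.of_good`) and by the `x` above for `E`:
  `y f x ∈ L(A⁻ + (M + N) n₀ C)`, whose pair reduction is the glued space of the push-forward, so
  `ord (red y) - (A⁺ + …) ≥ -(A⁻ + …)` at `Q'`;
* EQ: INEQ for `y` and for `y⁻¹`.
-/
import Mathlib
import Fermat.Agent.GS.Fib.Sep
import Fermat.Agent.GS.Nodal.ROfSurj2

set_option autoImplicit false
set_option linter.unusedSectionVars false

noncomputable section

open AlgebraicCurve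

namespace Fermat.Agent.GS.Fib

open Fermat.Agent.RRh45 Fermat.Agent.GJ.S37MinDiv Fermat.Agent.GJ.J1 Fermat.Agent.GK.MultiVal
open Fermat.Agent.GK.NodalGraded Fermat.Agent.GS.Nodal.LSR2

variable {K F k Ft1 Ft2 : Type*} [Field K] [Field F] [Algebra K F] [Field k]
  [Field Ft1] [Algebra k Ft1] [Field Ft2] [Algebra k Ft2]
variable {R1 : RedData K F k Ft1} {R2 : RedData K F k Ft2}
variable {hc : RedCompat R1 R2}
variable {ι : Type*} {P : ι → Place k Ft1} {Q : ι → Place k Ft2}
variable {C : Divisor K F} {C₁ : Divisor k Ft1} {C₂ : Divisor k Ft2} {g c : ℤ} {n₀ : ℕ}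
variable [FiniteResidues K F] [HasPrincipalDivisors K F] [Nonempty (Place K F)]
variable [FiniteResidues k Ft1] [HasPrincipalDivisors k Ft1] [Nonempty (Place k Ft1)]
variable [FiniteResidues k Ft2] [HasPrincipalDivisors k Ft2] [Nonempty (Place k Ft2)]
variable {H : NodalHyp hc P Q C C₁ C₂ g c n₀}

/-- the base level of the pencil is positive. -/
theorem n₀_pos (H : NodalHyp hc P Q C C₁ C₂ g c n₀) : 0 < n₀ := by
  rcases Nat.eq_zero_or_pos n₀ with h | h
  · have h1 := H.hn₀1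
    have h2 := H.c_nonneg
    rw [h] at h1
    simp at h1
    omega
  · exact h

/-- the inverse of an element with nonzero reduction is integral, with inverse reduction. -/
theorem exists_inv_mem {Ft : Type*} [Field Ft] [Algebra k Ft] (R : RedData K F k Ft) {y : F}
    (h : y ∈ R.Rw) (hy : R.red ⟨y, h⟩ ≠ 0) :
    ∃ hi : y⁻¹ ∈ R.Rw, R.red ⟨y, h⟩ * R.red ⟨y⁻¹, hi⟩ = 1 := by
  have hy0 : y ≠ 0 := by
    rintro rfl
    exact hy (map_zero R.red)
  have hu : IsUnit (⟨y, h⟩ : R.Rw) := by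
    by_contra hnu
    exact hy ((R.red_eq_zero_iff _).mpr ((IsLocalRing.mem_maximalIdeal _).mpr hnu))
  have hi : y⁻¹ ∈ R.Rw := by
    obtain ⟨u, hu⟩ := hu
    have h' : y * ((↑u⁻¹ : R.Rw) : F) = 1 := by
      have := congrArg Subtype.val (Units.mul_inv u)
      rw [hu] at this
      exact this
    rw [← eq_inv_of_mul_eq_one_right h']
    exact (↑u⁻¹ : R.Rw).2
  refine ⟨hi, ?_⟩
  have e : (⟨y, h⟩ : R.Rw) * ⟨y⁻¹, hi⟩ = 1 := by
    apply Subtype.ext
    show y * y⁻¹ = 1
    exact mul_inv_cancel₀ hy0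
  rw [← map_mul, e, map_one]

/-! ### first component -/

/-- **functions vanishing on a divisor away from the disc, of exact reduction order.** -/
theorem exists_wit1_avoid {Q' : Place k Ft1} (hQ' : ∀ j, Q' ≠ P j) (E : Divisor K F)
    (hE : 0 ≤ E) (hav : ∀ v ∈ E.support, v ∉ disc1 H Q') :
    ∃ N₁ : ℕ, ∀ N : ℕ, N₁ ≤ N →
      ∃ x, Wit1 R1 R2 (N • C - E) Q' (-((N • C₁) Q')) x := by
  classical
  induction E using Finsupp.induction with
  | zero =>
    refine ⟨n₀, fun N hN => ?_⟩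
    rw [sub_zero]
    exact Red.exists_wit1 (Red.pencil H hN) Q'
  | single_add a b f haf hb ih =>
    have hfa : f a = 0 := Finsupp.notMem_support_iff.mp haf
    have hb0 : 0 ≤ b := by
      have := Finsupp.le_def.mp hE a
      simpa [hfa] using this
    have hf0 : 0 ≤ f := by
      rw [Finsupp.le_def]
      intro w
      by_cases hw : w = a
      · subst hw; simp [hfa]
      · have := Finsupp.le_def.mp hE w
        simpa [Finsupp.single_eq_of_ne hw] using this
    have hava : a ∉ disc1 H Q' := by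
      apply hav
      rw [Finsupp.mem_support_iff, Finsupp.add_apply, Finsupp.single_eq_same, hfa, add_zero]
      exact hb
    have havf : ∀ v ∈ f.support, v ∉ disc1 H Q' := by
      intro v hv
      apply hav
      have hva : v ≠ a := by
        rintro rfl
        exact haf hv
      rw [Finsupp.mem_support_iff, Finsupp.add_apply, Finsupp.single_eq_of_ne hva, zero_add]
      exact Finsupp.mem_support_iff.mp hv
    obtain ⟨Nf, hNf⟩ := ih hf0 havf
    obtain ⟨m, rfl⟩ : ∃ m : ℕ, b = m := ⟨b.toNat, (Int.toNat_of_nonneg hb0).symm⟩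
    obtain ⟨T, hT0, hT1, hT2⟩ := H.exists_large (c + 2)
    obtain ⟨xa, hxa⟩ := exists_wit1_sub_single hQ' hava hT0 hT1 (by omega)
    refine ⟨m * T + Nf, fun N hN => ?_⟩
    obtain ⟨N', rfl⟩ : ∃ N', N = m * T + N' := ⟨N - m * T, by omega⟩
    have hN' : Nf ≤ N' := by omega
    obtain ⟨xf, hxf⟩ := hNf N' hN'
    have hprod := (hxa.pow m).mul hxf
    have eD : m • (T • C - Finsupp.single a 1) + (N' • C - f)
        = (m * T + N') • C - (Finsupp.single a (m : ℤ) + f) := by
      have e1 : (Finsupp.single a (m : ℤ) : Divisor K F) = m • Finsupp.single a 1 := by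
        rw [Finsupp.smul_single, nsmul_eq_mul, mul_one]
      rw [e1, add_nsmul, mul_nsmul', nsmul_sub]
      abel
    have eO : (m : ℤ) * -((T • C₁) Q') + -((N' • C₁) Q') = -(((m * T + N') • C₁) Q') := by
      rw [nsmul_div_apply, nsmul_div_apply, nsmul_div_apply]
      push_cast
      ring
    rw [eD, eO] at hprod
    exact ⟨_, hprod⟩

open Classical in
/-- **INEQ, first component**: for a function `y` integral for both valuations with nonzero first
reduction, the sum of the orders of `y` over the disc of a non-node place `Q'` is at most the order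
of the first reduction at `Q'`. -/
theorem sum_le_ord_red1 {Q' : Place k Ft1} (hQ' : ∀ j, Q' ≠ P j) {y : F} (h1 : y ∈ R1.Rw)
    (h2 : y ∈ R2.Rw) (hy1 : R1.red ⟨y, h1⟩ ≠ 0) {Dy : Divisor K F}
    (hDy : ∀ v : Place K F, Dy v = v.ord y) :
    ∑ v ∈ Dy.support.filter (fun v => v ∈ disc1 H Q'), v.ord y ≤ Q'.ord (R1.red ⟨y, h1⟩) := by
  -- the parts of the divisor of `y`
  obtain ⟨A, hA⟩ : ∃ A : Divisor K F, A = Dy.filter (fun v => v ∈ disc1 H Q') := ⟨_, rfl⟩
  have hAv : ∀ v, A v = if v ∈ disc1 H Q' then Dy v else 0 := fun v => by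
    rw [hA, Finsupp.filter_apply]
  obtain ⟨Ap, hAp⟩ : ∃ Ap : Divisor K F, Ap = A ⊔ 0 := ⟨_, rfl⟩
  have hApv : ∀ v, Ap v = max (A v) 0 := fun v => by rw [hAp, Finsupp.sup_apply]; rfl
  obtain ⟨Am, hAm⟩ : ∃ Am : Divisor K F, Am = (-A) ⊔ 0 := ⟨_, rfl⟩
  have hAmv : ∀ v, Am v = max (-(A v)) 0 := fun v => by
    rw [hAm, Finsupp.sup_apply, Finsupp.neg_apply]; rfl
  obtain ⟨Pol, hPol⟩ : ∃ Pol : Divisor K F, Pol = (-Dy) ⊔ 0 := ⟨_, rfl⟩
  have hPolv : ∀ v, Pol v = max (-(Dy v)) 0 := fun v => by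
    rw [hPol, Finsupp.sup_apply, Finsupp.neg_apply]; rfl
  obtain ⟨E, hE⟩ : ∃ E : Divisor K F, E = Pol.filter (fun v => v ∉ disc1 H Q') := ⟨_, rfl⟩
  have hEv : ∀ v, E v = if v ∉ disc1 H Q' then Pol v else 0 := fun v => by
    rw [hE, Finsupp.filter_apply]
  have hAp0 : 0 ≤ Ap := by rw [hAp]; exact le_sup_right
  have hAm0 : 0 ≤ Am := by rw [hAm]; exact le_sup_right
  have hE0 : 0 ≤ E := by
    rw [Finsupp.le_def]
    intro v
    rw [hEv, Finsupp.coe_zero, Pi.zero_apply]
    split_ifs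
    · exact le_refl _
    · rw [hPolv]; exact le_max_right _ _
  have hApd : ∀ v ∈ Ap.support, v ∈ disc1 H Q' := by
    intro v hv
    by_contra hn
    have := Finsupp.mem_support_iff.mp hv
    rw [hApv, hAv, if_neg hn] at this
    exact this (max_self 0)
  have hAmd : ∀ v ∈ Am.support, v ∈ disc1 H Q' := by
    intro v hv
    by_contra hn
    have := Finsupp.mem_support_iff.mp hv
    rw [hAmv, hAv, if_neg hn, neg_zero] at this
    exact this (max_self 0)
  have hEd : ∀ v ∈ E.support, v ∉ disc1 H Q' := by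
    intro v hv hn
    have := Finsupp.mem_support_iff.mp hv
    rw [hEv, if_neg (not_not.mpr hn)] at this
    exact this rfl
  have hgood : ∀ v, v ∈ disc1 H Q' → GoodPlace H v := fun v hv =>
    goodPlace_iff.mpr (Or.inl ⟨Q', hv⟩)
  obtain ⟨Mp, hMp⟩ := Red.of_good H hAp0 (fun v hv => hgood v (hApd v hv))
  obtain ⟨Mm, hMm⟩ := Red.of_good H hAm0 (fun v hv => hgood v (hAmd v hv))
  obtain ⟨N₁, hN₁⟩ := exists_wit1_avoid (H := H) hQ' E hE0 hEd
  have hn₀ := n₀_pos H
  -- the three witnesses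
  have hwy : Wit1 R1 R2 (-Dy) Q' (Q'.ord (R1.red ⟨y, h1⟩)) y := by
    refine ⟨h1, h2, ?_, hy1, rfl⟩
    rw [mem_riemannRochSpace_iff]
    intro v
    right
    rw [Finsupp.neg_apply, neg_neg, hDy v]
  obtain ⟨f, hwf⟩ := Red.exists_wit1 (hMp (Mp + Mm) (Nat.le_add_right _ _)) Q'
  obtain ⟨x, hwx⟩ := hN₁ (N₁ * n₀) (Nat.le_mul_of_pos_right N₁ hn₀)
  have hprod := (hwy.mul hwf).mul hwx
  have hR := hMm (Mp + Mm + N₁) (by omega)
  have hle : -Dy + (Ap + ((Mp + Mm) * n₀) • C) + ((N₁ * n₀) • C - E)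
      ≤ Am + ((Mp + Mm + N₁) * n₀) • C := by
    rw [Finsupp.le_def]
    intro v
    simp only [Finsupp.add_apply, Finsupp.sub_apply, Finsupp.neg_apply, nsmul_div_apply]
    have e : (((Mp + Mm + N₁) * n₀ : ℕ) : ℤ) * C v
        = (((Mp + Mm) * n₀ : ℕ) : ℤ) * C v + ((N₁ * n₀ : ℕ) : ℤ) * C v := by
      push_cast; ring
    rw [e, hApv, hAmv, hEv, hAv, hPolv]
    generalize (((Mp + Mm) * n₀ : ℕ) : ℤ) * C v = s
    generalize ((N₁ * n₀ : ℕ) : ℤ) * C v = t
    split_ifs <;> omega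
  have hfin := (hprod.mono hle).le_of_red hR
  simp only [Finsupp.add_apply, nsmul_div_apply] at hfin
  have hsub : Ap - Am = A := by
    ext v
    rw [Finsupp.sub_apply, hApv, hAmv]
    omega
  have hpush : push1 H Ap Q' - push1 H Am Q' = push1 H A Q' := by
    rw [← hsub, map_sub, Finsupp.sub_apply]
  have hsupp : A.support = Dy.support.filter (fun v => v ∈ disc1 H Q') := by
    rw [hA, Finsupp.support_filter]
  have hval : push1 H A Q' = ∑ v ∈ Dy.support.filter (fun v => v ∈ disc1 H Q'), v.ord y := by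
    rw [push1_apply, hsupp]
    refine Finset.sum_congr rfl fun v hv => ?_
    have hvd : v ∈ disc1 H Q' := (Finset.mem_filter.mp hv).2
    rw [rd1_apply (hgood v hvd), if_pos hvd, mul_one, hAv, if_pos hvd, hDy v]
  rw [← hval, ← hpush]
  push_cast at hfin
  linarith

open Classical in
/-- **EQ, first component**: the fibre formula at a non-node place of the first component, for
every common unit `y` of the two valuations. -/
theorem ord_red1_eq_sum {Q' : Place k Ft1} (hQ' : ∀ j, Q' ≠ P j) {y : F} (h1 : y ∈ R1.Rw)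
    (h2 : y ∈ R2.Rw) (hy1 : R1.red ⟨y, h1⟩ ≠ 0) (hy2 : R2.red ⟨y, h2⟩ ≠ 0) {Dy : Divisor K F}
    (hDy : ∀ v : Place K F, Dy v = v.ord y) :
    Q'.ord (R1.red ⟨y, h1⟩) = ∑ v ∈ Dy.support.filter (fun v => v ∈ disc1 H Q'), v.ord y := by
  refine le_antisymm ?_ (sum_le_ord_red1 hQ' h1 h2 hy1 hDy)
  obtain ⟨hi1, e1⟩ := exists_inv_mem R1 h1 hy1
  obtain ⟨hi2, e2⟩ := exists_inv_mem R2 h2 hy2
  have hne : R1.red ⟨y⁻¹, hi1⟩ ≠ 0 := right_ne_zero_of_mul_eq_one e1
  have hD' : ∀ v : Place K F, (-Dy) v = v.ord y⁻¹ := fun v => by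
    rw [Finsupp.neg_apply, hDy v, v.ord_inv]
  have h := sum_le_ord_red1 (H := H) hQ' hi1 hi2 hne hD'
  have hord : Q'.ord (R1.red ⟨y⁻¹, hi1⟩) = -Q'.ord (R1.red ⟨y, h1⟩) := by
    have := Q'.ord_mul hy1 hne
    rw [e1, Place.ord_one] at this
    omega
  have hsum : ∑ v ∈ Dy.support.filter (fun v => v ∈ disc1 H Q'), v.ord y⁻¹
      = -∑ v ∈ Dy.support.filter (fun v => v ∈ disc1 H Q'), v.ord y := by
    rw [← Finset.sum_neg_distrib]
    exact Finset.sum_congr rfl fun v _ => v.ord_inv y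
  rw [hord, Finsupp.support_neg, hsum] at h
  omega

/-! ### second component -/

/-- **functions vanishing on a divisor away from the disc, of exact reduction order.** -/
theorem exists_wit2_avoid {Q' : Place k Ft2} (hQ' : ∀ j, Q' ≠ Q j) (E : Divisor K F)
    (hE : 0 ≤ E) (hav : ∀ v ∈ E.support, v ∉ disc2 H Q') :
    ∃ N₁ : ℕ, ∀ N : ℕ, N₁ ≤ N →
      ∃ x, Wit2 R1 R2 (N • C - E) Q' (-((N • C₂) Q')) x := by
  classical
  induction E using Finsupp.induction with
  | zero =>
    refine ⟨n₀, fun N hN => ?_⟩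
    rw [sub_zero]
    exact Red.exists_wit2 (Red.pencil H hN) Q'
  | single_add a b f haf hb ih =>
    have hfa : f a = 0 := Finsupp.notMem_support_iff.mp haf
    have hb0 : 0 ≤ b := by
      have := Finsupp.le_def.mp hE a
      simpa [hfa] using this
    have hf0 : 0 ≤ f := by
      rw [Finsupp.le_def]
      intro w
      by_cases hw : w = a
      · subst hw; simp [hfa]
      · have := Finsupp.le_def.mp hE w
        simpa [Finsupp.single_eq_of_ne hw] using this
    have hava : a ∉ disc2 H Q' := by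
      apply hav
      rw [Finsupp.mem_support_iff, Finsupp.add_apply, Finsupp.single_eq_same, hfa, add_zero]
      exact hb
    have havf : ∀ v ∈ f.support, v ∉ disc2 H Q' := by
      intro v hv
      apply hav
      have hva : v ≠ a := by
        rintro rfl
        exact haf hv
      rw [Finsupp.mem_support_iff, Finsupp.add_apply, Finsupp.single_eq_of_ne hva, zero_add]
      exact Finsupp.mem_support_iff.mp hv
    obtain ⟨Nf, hNf⟩ := ih hf0 havf
    obtain ⟨m, rfl⟩ : ∃ m : ℕ, b = m := ⟨b.toNat, (Int.toNat_of_nonneg hb0).symm⟩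
    obtain ⟨T, hT0, hT1, hT2⟩ := H.exists_large (c + 2)
    obtain ⟨xa, hxa⟩ := exists_wit2_sub_single hQ' hava hT0 (by omega) hT2
    refine ⟨m * T + Nf, fun N hN => ?_⟩
    obtain ⟨N', rfl⟩ : ∃ N', N = m * T + N' := ⟨N - m * T, by omega⟩
    have hN' : Nf ≤ N' := by omega
    obtain ⟨xf, hxf⟩ := hNf N' hN'
    have hprod := (hxa.pow m).mul hxf
    have eD : m • (T • C - Finsupp.single a 1) + (N' • C - f)
        = (m * T + N') • C - (Finsupp.single a (m : ℤ) + f) := by
      have e1 : (Finsupp.single a (m : ℤ) : Divisor K F) = m • Finsupp.single a 1 := by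
        rw [Finsupp.smul_single, nsmul_eq_mul, mul_one]
      rw [e1, add_nsmul, mul_nsmul', nsmul_sub]
      abel
    have eO : (m : ℤ) * -((T • C₂) Q') + -((N' • C₂) Q') = -(((m * T + N') • C₂) Q') := by
      rw [nsmul_div_apply, nsmul_div_apply, nsmul_div_apply]
      push_cast
      ring
    rw [eD, eO] at hprod
    exact ⟨_, hprod⟩

open Classical in
/-- **INEQ, second component**: for a function `y` integral for both valuations with nonzero second
reduction, the sum of the orders of `y` over the disc of a non-node place `Q'` is at most the order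
of the second reduction at `Q'`. -/
theorem sum_le_ord_red2 {Q' : Place k Ft2} (hQ' : ∀ j, Q' ≠ Q j) {y : F} (h1 : y ∈ R1.Rw)
    (h2 : y ∈ R2.Rw) (hy2 : R2.red ⟨y, h2⟩ ≠ 0) {Dy : Divisor K F}
    (hDy : ∀ v : Place K F, Dy v = v.ord y) :
    ∑ v ∈ Dy.support.filter (fun v => v ∈ disc2 H Q'), v.ord y ≤ Q'.ord (R2.red ⟨y, h2⟩) := by
  -- the parts of the divisor of `y`
  obtain ⟨A, hA⟩ : ∃ A : Divisor K F, A = Dy.filter (fun v => v ∈ disc2 H Q') := ⟨_, rfl⟩
  have hAv : ∀ v, A v = if v ∈ disc2 H Q' then Dy v else 0 := fun v => by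
    rw [hA, Finsupp.filter_apply]
  obtain ⟨Ap, hAp⟩ : ∃ Ap : Divisor K F, Ap = A ⊔ 0 := ⟨_, rfl⟩
  have hApv : ∀ v, Ap v = max (A v) 0 := fun v => by rw [hAp, Finsupp.sup_apply]; rfl
  obtain ⟨Am, hAm⟩ : ∃ Am : Divisor K F, Am = (-A) ⊔ 0 := ⟨_, rfl⟩
  have hAmv : ∀ v, Am v = max (-(A v)) 0 := fun v => by
    rw [hAm, Finsupp.sup_apply, Finsupp.neg_apply]; rfl
  obtain ⟨Pol, hPol⟩ : ∃ Pol : Divisor K F, Pol = (-Dy) ⊔ 0 := ⟨_, rfl⟩
  have hPolv : ∀ v, Pol v = max (-(Dy v)) 0 := fun v => by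
    rw [hPol, Finsupp.sup_apply, Finsupp.neg_apply]; rfl
  obtain ⟨E, hE⟩ : ∃ E : Divisor K F, E = Pol.filter (fun v => v ∉ disc2 H Q') := ⟨_, rfl⟩
  have hEv : ∀ v, E v = if v ∉ disc2 H Q' then Pol v else 0 := fun v => by
    rw [hE, Finsupp.filter_apply]
  have hAp0 : 0 ≤ Ap := by rw [hAp]; exact le_sup_right
  have hAm0 : 0 ≤ Am := by rw [hAm]; exact le_sup_right
  have hE0 : 0 ≤ E := by
    rw [Finsupp.le_def]
    intro v
    rw [hEv, Finsupp.coe_zero, Pi.zero_apply]
    split_ifs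
    · exact le_refl _
    · rw [hPolv]; exact le_max_right _ _
  have hApd : ∀ v ∈ Ap.support, v ∈ disc2 H Q' := by
    intro v hv
    by_contra hn
    have := Finsupp.mem_support_iff.mp hv
    rw [hApv, hAv, if_neg hn] at this
    exact this (max_self 0)
  have hAmd : ∀ v ∈ Am.support, v ∈ disc2 H Q' := by
    intro v hv
    by_contra hn
    have := Finsupp.mem_support_iff.mp hv
    rw [hAmv, hAv, if_neg hn, neg_zero] at this
    exact this (max_self 0)
  have hEd : ∀ v ∈ E.support, v ∉ disc2 H Q' := by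
    intro v hv hn
    have := Finsupp.mem_support_iff.mp hv
    rw [hEv, if_neg (not_not.mpr hn)] at this
    exact this rfl
  have hgood : ∀ v, v ∈ disc2 H Q' → GoodPlace H v := fun v hv =>
    goodPlace_iff.mpr (Or.inr ⟨Q', hv⟩)
  obtain ⟨Mp, hMp⟩ := Red.of_good H hAp0 (fun v hv => hgood v (hApd v hv))
  obtain ⟨Mm, hMm⟩ := Red.of_good H hAm0 (fun v hv => hgood v (hAmd v hv))
  obtain ⟨N₁, hN₁⟩ := exists_wit2_avoid (H := H) hQ' E hE0 hEd
  have hn₀ := n₀_pos H
  -- the three witnesses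
  have hwy : Wit2 R1 R2 (-Dy) Q' (Q'.ord (R2.red ⟨y, h2⟩)) y := by
    refine ⟨h1, h2, ?_, hy2, rfl⟩
    rw [mem_riemannRochSpace_iff]
    intro v
    right
    rw [Finsupp.neg_apply, neg_neg, hDy v]
  obtain ⟨f, hwf⟩ := Red.exists_wit2 (hMp (Mp + Mm) (Nat.le_add_right _ _)) Q'
  obtain ⟨x, hwx⟩ := hN₁ (N₁ * n₀) (Nat.le_mul_of_pos_right N₁ hn₀)
  have hprod := (hwy.mul hwf).mul hwx
  have hR := hMm (Mp + Mm + N₁) (by omega)
  have hle : -Dy + (Ap + ((Mp + Mm) * n₀) • C) + ((N₁ * n₀) • C - E)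
      ≤ Am + ((Mp + Mm + N₁) * n₀) • C := by
    rw [Finsupp.le_def]
    intro v
    simp only [Finsupp.add_apply, Finsupp.sub_apply, Finsupp.neg_apply, nsmul_div_apply]
    have e : (((Mp + Mm + N₁) * n₀ : ℕ) : ℤ) * C v
        = (((Mp + Mm) * n₀ : ℕ) : ℤ) * C v + ((N₁ * n₀ : ℕ) : ℤ) * C v := by
      push_cast; ring
    rw [e, hApv, hAmv, hEv, hAv, hPolv]
    generalize (((Mp + Mm) * n₀ : ℕ) : ℤ) * C v = s
    generalize ((N₁ * n₀ : ℕ) : ℤ) * C v = t
    split_ifs <;> omega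
  have hfin := (hprod.mono hle).le_of_red hR
  simp only [Finsupp.add_apply, nsmul_div_apply] at hfin
  have hsub : Ap - Am = A := by
    ext v
    rw [Finsupp.sub_apply, hApv, hAmv]
    omega
  have hpush : push2 H Ap Q' - push2 H Am Q' = push2 H A Q' := by
    rw [← hsub, map_sub, Finsupp.sub_apply]
  have hsupp : A.support = Dy.support.filter (fun v => v ∈ disc2 H Q') := by
    rw [hA, Finsupp.support_filter]
  have hval : push2 H A Q' = ∑ v ∈ Dy.support.filter (fun v => v ∈ disc2 H Q'), v.ord y := by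
    rw [push2_apply, hsupp]
    refine Finset.sum_congr rfl fun v hv => ?_
    have hvd : v ∈ disc2 H Q' := (Finset.mem_filter.mp hv).2
    rw [rd2_apply (hgood v hvd), if_pos hvd, mul_one, hAv, if_pos hvd, hDy v]
  rw [← hval, ← hpush]
  push_cast at hfin
  linarith

open Classical in
/-- **EQ, second component**: the fibre formula at a non-node place of the second component, for
every common unit `y` of the two valuations. -/
theorem ord_red2_eq_sum {Q' : Place k Ft2} (hQ' : ∀ j, Q' ≠ Q j) {y : F} (h1 : y ∈ R1.Rw)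
    (h2 : y ∈ R2.Rw) (hy1 : R1.red ⟨y, h1⟩ ≠ 0) (hy2 : R2.red ⟨y, h2⟩ ≠ 0) {Dy : Divisor K F}
    (hDy : ∀ v : Place K F, Dy v = v.ord y) :
    Q'.ord (R2.red ⟨y, h2⟩) = ∑ v ∈ Dy.support.filter (fun v => v ∈ disc2 H Q'), v.ord y := by
  refine le_antisymm ?_ (sum_le_ord_red2 hQ' h1 h2 hy2 hDy)
  obtain ⟨hi1, e1⟩ := exists_inv_mem R1 h1 hy1
  obtain ⟨hi2, e2⟩ := exists_inv_mem R2 h2 hy2
  have hne : R2.red ⟨y⁻¹, hi2⟩ ≠ 0 := right_ne_zero_of_mul_eq_one e2
  have hD' : ∀ v : Place K F, (-Dy) v = v.ord y⁻¹ := fun v => by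
    rw [Finsupp.neg_apply, hDy v, v.ord_inv]
  have h := sum_le_ord_red2 (H := H) hQ' hi1 hi2 hne hD'
  have hord : Q'.ord (R2.red ⟨y⁻¹, hi2⟩) = -Q'.ord (R2.red ⟨y, h2⟩) := by
    have := Q'.ord_mul hy2 hne
    rw [e2, Place.ord_one] at this
    omega
  have hsum : ∑ v ∈ Dy.support.filter (fun v => v ∈ disc2 H Q'), v.ord y⁻¹
      = -∑ v ∈ Dy.support.filter (fun v => v ∈ disc2 H Q'), v.ord y := by
    rw [← Finset.sum_neg_distrib]
    exact Finset.sum_congr rfl fun v _ => v.ord_inv y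
  rw [hord, Finsupp.support_neg, hsum] at h
  omega

/-! ### the binder of `GS/Nodal/ROfSurj2.lean` -/

/-- **THE FIBRE FORMULA FOR ALL COMMON UNITS, AT ALL NON-NODE PLACES, FROM `NodalHyp` ALONE**:
helper48's binder `ROfSurj2.FF2` for the discs `disc1 H`, `disc2 H` of helper16 and
`S₁ = {non-node places of the first component}`, `S₂ = {non-node places of the second}`. -/
theorem ff2 (H : NodalHyp hc P Q C C₁ C₂ g c n₀) :
    Fermat.Agent.GS.Nodal.ROfSurj2.FF2 R1 R2 (disc1 H) (disc2 H)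
      {Q' : Place k Ft1 | ∀ j, Q' ≠ P j} {Q' : Place k Ft2 | ∀ j, Q' ≠ Q j} := by
  intro y h1 h2 hy1 hy2 Dy hDy
  exact ⟨fun Q' hQ' => ord_red1_eq_sum hQ' h1 h2 hy1 hy2 hDy,
    fun Q' hQ' => ord_red2_eq_sum hQ' h1 h2 hy1 hy2 hDy⟩

end Fermat.Agent.GS.Fib

end
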